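import Fermat.Agent.CMValue.Quadratic
import Fermat.Agent.Weight1.DensityPairs

/-!
# CM fields abelian over a totally real field

For a CM field `L` abelian over a totally real field `F` the L-series of a character of
`Gal (L/F)`, `-1` at the complex conjugation, is that of a primitive totally odd ray class
character of `F`; its value at `0` is not zero and follows the character under `Aut ℂ`, and the
product of these values gives the relative class number.
-/

set_option autoImplicit false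
set_option linter.unusedSectionVars false
set_option linter.style.haveILetI false

noncomputable section

open NumberField InfinitePlace IsDedekindDomain Module Filter Complex
open scoped Real nonZeroDivisors Classical Topology

namespace FA.CMValue

open FA.HeckeCharFE FA.KlingenRay
open FA.Hecke (IsRayChar IsNontrivial heckeL)
open FA.ArtinL (artinL inducedFn galIncl)

variable {F L : Type*} [Field F] [NumberField F] [IsTotallyReal F] [Field L] [NumberField L]
  [IsCMField L] [Algebra F L]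

variable (F L) in
/-- Complex conjugation over `F`. -/
def conjAut : L ≃ₐ[F] L :=
  AlgEquiv.ofRingEquiv (f := (IsCMField.complexConj L).toRingEquiv) fun a => by
    obtain ⟨φ⟩ := (inferInstance : Nonempty (L →+* ℂ))
    refine φ.injective ?_
    show φ (IsCMField.complexConj L (algebraMap F L a)) = φ (algebraMap F L a)
    rw [IsCMField.complexEmbedding_complexConj]
    exact RingHom.congr_fun (ComplexEmbedding.isReal_iff.1
      (IsTotallyReal.complexEmbedding_isReal (φ.comp (algebraMap F L)))) a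

theorem conjAut_apply (x : L) : conjAut F L x = IsCMField.complexConj L x := rfl

theorem conjAut_mul_self : conjAut F L * conjAut F L = 1 := by
  ext x
  simp [conjAut_apply]

theorem conjAut_ne_one : conjAut F L ≠ 1 := fun h =>
  IsCMField.complexConj_ne_one L (AlgEquiv.ext fun x => AlgEquiv.congr_fun h x)

variable [IsGalois F L]

/-- An odd character has a totally complex field. -/
theorem isTotallyComplex_fixedField {ψ : (L ≃ₐ[F] L) →* ℂˣ} (h : ψ (conjAut F L) = -1) :
    IsTotallyComplex (IntermediateField.fixedField ψ.ker) := by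
  refine ⟨fun w => not_isReal_iff_isComplex.1 fun hw => ?_⟩
  have hφ : ComplexEmbedding.conjugate w.embedding = w.embedding :=
    ComplexEmbedding.isReal_iff.1 (isReal_iff.1 hw)
  have hfix : conjAut F L ∈ IntermediateField.fixingSubgroup
      (IntermediateField.fixedField ψ.ker) := by
    refine (IntermediateField.mem_fixingSubgroup_iff _ _).2 fun x hx => ?_
    refine (ComplexEmbedding.lift L w.embedding).injective ?_
    rw [conjAut_apply, IsCMField.complexEmbedding_complexConj,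
      show x = algebraMap (IntermediateField.fixedField ψ.ker) L ⟨x, hx⟩ from rfl,
      ComplexEmbedding.lift_algebraMap_apply]
    exact RingHom.congr_fun hφ _
  rw [IntermediateField.fixingSubgroup_fixedField, MonoidHom.mem_ker, h, Units.ext_iff] at hfix
  norm_num at hfix

/-- **The character of `F` of an odd character.** -/
theorem exists_char (ψ : (L ≃ₐ[F] L) →* ℂˣ) (h : ψ (conjAut F L) = -1) :
    ∃ (𝔣 : Ideal (𝓞 F)) (g : Ideal (𝓞 F) →* ℂ), HasSigns 𝔣 g Finset.univ ∧
      IsPrimitiveChar 𝔣 g ∧ IsNontrivial g ∧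
      ∀ (σ : ℂ →+* ℂ) (s : ℂ), 1 < s.re →
        artinL (fun a => σ (ψ a : ℂ)) s = heckeL (twistChar σ g) s := by
  obtain ⟨_, ψM, hinj, hψM⟩ := FA.ArtinFE.exists_faithful ψ
  have hneM : ψM ≠ 1 := fun he => by
    have h1 := (hψM (conjAut F L)).symm
    rw [h, he, MonoidHom.one_apply, Units.ext_iff] at h1
    norm_num at h1
  have := isTotallyComplex_fixedField h
  obtain ⟨𝔣, g, hS, hp, hnt, -, hL⟩ := exists_char_faithful ψM hinj hneM
  rw [realRam_eq_univ] at hS
  refine ⟨𝔣, g, hS, hp, hnt, fun σ s hs => ?_⟩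
  rw [← hL σ s hs, ← FA.ArtinL.artinL_inflation (K := F)
    (M := IntermediateField.fixedField ψ.ker) (L := L) (f := fun a => σ (ψM a : ℂ))
    (fun a b => by simp) s]
  exact congrArg (fun f => artinL f s) (funext fun a => by rw [hψM])

/-- A continuation of the L-series of a linear character. -/
def IsArtinExt (ψ : (L ≃ₐ[F] L) →* ℂˣ) (Z : ℂ → ℂ) : Prop :=
  DifferentiableOn ℂ Z {1}ᶜ ∧ ∀ s : ℂ, 1 < s.re → Z s = artinL (fun a => (ψ a : ℂ)) s

/-- The composite with `σ`. -/
abbrev sigmaChar (σ : ℂ →+* ℂ) (ψ : (L ≃ₐ[F] L) →* ℂˣ) : (L ≃ₐ[F] L) →* ℂˣ :=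
  (Units.map σ.toMonoidHom).comp ψ

theorem exists_artinExt {ψ : (L ≃ₐ[F] L) →* ℂˣ} (h : ψ (conjAut F L) = -1) :
    ∃ Z, IsArtinExt ψ Z := by
  obtain ⟨𝔣, g, hS, hp, hnt, hL⟩ := exists_char ψ h
  exact ⟨primExt hS hp, (differentiable_primExt hS hp).differentiableOn,
    fun s hs => (primExt_eq hS hp hnt hs).trans (hL (RingHom.id ℂ) s hs).symm⟩

/-- **Equivariance and nonvanishing.** -/
theorem artinValue_galois {ψ : (L ≃ₐ[F] L) →* ℂˣ} (h : ψ (conjAut F L) = -1) {Z : ℂ → ℂ}
    (hZ : IsArtinExt ψ Z) : Z 0 ≠ 0 ∧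
      ∀ (σ : ℂ →+* ℂ) (Z' : ℂ → ℂ), IsArtinExt (sigmaChar σ ψ) Z' → σ (Z 0) = Z' 0 := by
  obtain ⟨𝔣, g, hS, hp, hnt, hL⟩ := exists_char ψ h
  have hg : IsLExt g Z := ⟨hZ.1, fun s hs => (hZ.2 s hs).trans (hL (RingHom.id ℂ) s hs)⟩
  refine ⟨fun e => (FA.KlingenZero.value_zero_eq_zero_iff hS hp hnt hg).1 e rfl,
    fun σ Z' hZ' => FA.KlingenZero.value_zero_galois hS.ray σ hg
      ⟨hZ'.1, fun s hs => (hZ'.2 s hs).trans (hL σ s hs)⟩⟩

theorem artinValue_mem {ψ : (L ≃ₐ[F] L) →* ℂˣ} (h : ψ (conjAut F L) = -1) {Z : ℂ → ℂ}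
    (hZ : IsArtinExt ψ Z) :
    Z 0 ∈ IntermediateField.adjoin ℚ (Set.range fun a => (ψ a : ℂ)) := by
  refine mem_of_forall_fixed _ _ fun σ hσ => ?_
  have e : sigmaChar σ.toRingHom ψ = ψ := MonoidHom.ext fun a => Units.ext
    (hσ _ (IntermediateField.subset_adjoin ℚ _ ⟨a, rfl⟩))
  exact (artinValue_galois h hZ).2 σ.toRingHom Z (e.symm ▸ hZ)

/-! ### The zeta functions -/

local notation3 "L⁺" => maximalRealSubfield L

/-- **The factorisation over `F`.** -/
theorem dedekindZeta_eq (hcomm : ∀ a b : L ≃ₐ[F] L, a * b = b * a)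
    [Fintype ((L ≃ₐ[F] L) →* ℂˣ)] {s : ℂ} (hs : 1 < s.re) :
    dedekindZeta L s = dedekindZeta L⁺ s *
      ∏ ψ ∈ Finset.univ.filter (fun ψ : (L ≃ₐ[F] L) →* ℂˣ => ψ (conjAut F L) = -1),
        artinL (fun a => (ψ a : ℂ)) s := by
  have hmem : ∀ a : F, algebraMap F L a ∈ L⁺ := fun a (φ : L →+* ℂ) => RingHom.congr_fun
    (ComplexEmbedding.isReal_iff.1
      (IsTotallyReal.complexEmbedding_isReal (φ.comp (algebraMap F L)))) a
  letI : Algebra F L⁺ := ((algebraMap F L).codRestrict L⁺ hmem).toAlgebra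
  haveI : IsScalarTower F L⁺ L := IsScalarTower.of_algebraMap_eq fun a => rfl
  letI : CommGroup (L ≃ₐ[F] L) :=
    { (inferInstance : Group (L ≃ₐ[F] L)) with mul_comm := hcomm }
  obtain ⟨c, hc⟩ : ∃ c, c = conjAut F L := ⟨_, rfl⟩
  have hcc : c * c = 1 := hc ▸ conjAut_mul_self
  have hc1 : c ≠ 1 := hc ▸ conjAut_ne_one
  have : Subsingleton (L ≃ₐ[L] L) := ⟨fun a b => AlgEquiv.ext fun x => by
    rw [show a x = x from a.commutes x, show b x = x from b.commutes x]⟩
  have hdual : ∀ x : L ≃ₐ[F] L, ∑ ψ : (L ≃ₐ[F] L) →* ℂˣ, (ψ x : ℂ) =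
      if x = 1 then (Fintype.card (L ≃ₐ[F] L) : ℂ) else 0 := fun x => by
    rw [← FA.Weight1.sum_char_apply x]
    exact Finset.sum_congr (Finset.ext fun _ => by simp) fun _ _ => rfl
  have hconj : ∀ x g : L ≃ₐ[F] L, x * g * x⁻¹ = g := fun x g => by
    rw [mul_comm x, mul_inv_cancel_right]
  have hindL : ∀ g : L ≃ₐ[F] L, inducedFn F (fun _ : L ≃ₐ[L] L => (1 : ℂ)) g =
      (Fintype.card (L ≃ₐ[F] L) : ℂ) * if 1 = g then 1 else 0 := fun g => by
    simp only [inducedFn, hconj, Finset.sum_const, Finset.card_univ, nsmul_eq_mul,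
      Fintype.sum_subsingleton _ (1 : L ≃ₐ[L] L), map_one, Nat.card_unique, Nat.cast_one, inv_one,
      one_mul]
  have hfun : inducedFn F (fun _ : L ≃ₐ[L] L => (1 : ℂ)) =
      inducedFn F (fun _ : L ≃ₐ[L⁺] L => (1 : ℂ)) +
        ∑ ψ ∈ Finset.univ.filter (fun ψ : (L ≃ₐ[F] L) →* ℂˣ => ψ c = -1),
          fun a => (ψ a : ℂ) := by
    funext g
    have huniv : (Finset.univ : Finset (L ≃ₐ[L⁺] L)) = {1, IsCMField.complexConj L} := by
      refine (Finset.eq_univ_of_forall fun a => ?_).symm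
      rcases eq_one_or_conj L a with h | h <;> simp [h]
    have hgal : galIncl F L⁺ L (IsCMField.complexConj L) = c := by
      rw [hc]
      exact AlgEquiv.ext fun x => rfl
    have hodd : ∑ ψ ∈ Finset.univ.filter (fun ψ : (L ≃ₐ[F] L) →* ℂˣ => ψ c = -1), (ψ g : ℂ) =
        2⁻¹ * ∑ ψ : (L ≃ₐ[F] L) →* ℂˣ, ((ψ g : ℂ) - (ψ (g * c) : ℂ)) := by
      rw [Finset.mul_sum, Finset.sum_filter]
      refine Finset.sum_congr rfl fun ψ _ => ?_
      have h2 : (ψ c : ℂ) * (ψ c : ℂ) = 1 := by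
        rw [← Units.val_mul, ← map_mul, hcc, map_one, Units.val_one]
      rw [map_mul, Units.val_mul]
      rcases mul_self_eq_one_iff.1 h2 with h | h
      · rw [if_neg fun e => by rw [e] at h; norm_num at h, h]
        ring
      · rw [if_pos (Units.ext (by rw [h]; simp)), h]
        ring
    have hindP : inducedFn F (fun _ : L ≃ₐ[L⁺] L => (1 : ℂ)) g = 2⁻¹ *
        ((Fintype.card (L ≃ₐ[F] L) : ℂ) *
          ((if 1 = g then 1 else 0) + if c = g then 1 else 0)) := by
      simp only [inducedFn, hconj, Finset.sum_const, Finset.card_univ, nsmul_eq_mul, card_gal,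
        huniv, Finset.sum_pair (IsCMField.complexConj_ne_one L).symm, map_one, hgal,
        Nat.cast_ofNat]
    rw [Pi.add_apply, Finset.sum_apply, hindL, hindP, hodd, Finset.sum_sub_distrib, hdual, hdual]
    by_cases h1 : g = 1
    · subst h1
      rw [if_pos rfl, if_pos rfl, if_neg hc1, one_mul, if_neg hc1]
      ring
    · by_cases h2 : g = c
      · subst h2
        rw [if_neg h1, if_neg (Ne.symm h1), if_pos rfl, hcc, if_pos rfl]
        ring
      · rw [if_neg h1, if_neg (Ne.symm h1), if_neg (Ne.symm h2), if_neg fun e => h2 (by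
          rw [← mul_one g, ← hcc, ← mul_assoc, e, one_mul])]
        ring
  rw [FA.ArtinL.dedekindZeta_eq_artinL (K := F) (L := L) hs L,
    FA.ArtinL.dedekindZeta_eq_artinL (K := F) (L := L) hs L⁺, hfun, hc, FA.ArtinL.artinL_add hs,
    FA.ArtinL.artinL_sum hs]

/-- **The relative class number of a CM field abelian over a totally real field.** -/
theorem classNumber_abelian (hcomm : ∀ a b : L ≃ₐ[F] L, a * b = b * a)
    [Fintype ((L ≃ₐ[F] L) →* ℂˣ)] {Z : ((L ≃ₐ[F] L) →* ℂˣ) → ℂ → ℂ}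
    (hZ : ∀ ψ : (L ≃ₐ[F] L) →* ℂˣ, ψ (conjAut F L) = -1 → IsArtinExt ψ (Z ψ)) :
    (classNumber L : ℂ) * 2 ^ finrank ℚ L⁺ =
      (classNumber L⁺ : ℂ) * (IsCMField.indexRealUnits L : ℂ) * (Units.torsionOrder L : ℂ) *
        ∏ ψ ∈ Finset.univ.filter (fun ψ : (L ≃ₐ[F] L) →* ℂˣ => ψ (conjAut F L) = -1), Z ψ 0 :=
  classNumber_formula (Z := fun s =>
      ∏ ψ ∈ Finset.univ.filter (fun ψ : (L ≃ₐ[F] L) →* ℂˣ => ψ (conjAut F L) = -1), Z ψ s)
    (DifferentiableOn.fun_finsetProd fun ψ hψ => (hZ ψ (Finset.mem_filter.1 hψ).2).1)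
    fun s hs => by
      rw [dedekindZeta_eq hcomm hs]
      exact congrArg _ (Finset.prod_congr rfl fun ψ hψ =>
        ((hZ ψ (Finset.mem_filter.1 hψ).2).2 s hs).symm)

end FA.CMValue

end
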