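import Fermat.Agent.KlingenZero.Classes
import Fermat.Agent.ExistenceTheorem.RayMaps

/-!
# Brumer's element of a narrow ray class group

The values at `0` of the partial zeta functions are the coefficients of an element of the rational
group ring, which a character carries to the value at `0` of the L-series of its inverse; a change
of modulus multiplies it by Euler factors.
-/

set_option autoImplicit false
set_option linter.unusedSectionVars false
set_option linter.style.haveILetI false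

noncomputable section

open NumberField IsDedekindDomain Filter Complex
open scoped nonZeroDivisors Classical

namespace FA.CMValue

open FA.KlingenRay
open FA.Hecke (IsRayChar heckeL fPow RayClassGroup rayClass rayClass_surjective coprimeIdeals
  rayCharFn rayCharFn_apply isRayChar_rayCharFn finite_rayClassGroup)
open FA.ArtinRec (rayMap rayMap_apply coprimeIdeals_mono)
open FA.Ext (primeIdeal)

variable {F : Type*} [Field F] [NumberField F] [IsTotallyReal F] {𝔪 𝔐 : Ideal (𝓞 F)}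

/-- The value at `0` of the zeta function of a class. -/
def rayClassValue (h𝔪 : 𝔪 ≠ ⊥) (γ : RayClassGroup 𝔪) : ℚ :=
  (FA.KlingenZero.classValue_zero_rational h𝔪 γ (exists_isClassExt h𝔪 γ).choose_spec).choose

theorem rayClassValue_spec (h𝔪 : 𝔪 ≠ ⊥) (γ : RayClassGroup 𝔪) {Z : ℂ → ℂ}
    (hZ : IsClassExt h𝔪 γ Z) : Z 0 = (rayClassValue h𝔪 γ : ℂ) := by
  have h0 := (exists_isClassExt h𝔪 γ).choose_spec
  rw [rayClassValue, ← (FA.KlingenZero.classValue_zero_rational h𝔪 γ h0).choose_spec]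
  refine (hZ.1.analyticOnNhd isOpen_compl_singleton).eqOn_of_preconnected_of_eventuallyEq
    (h0.1.analyticOnNhd isOpen_compl_singleton)
    (isConnected_compl_singleton_of_one_lt_rank (by simp) 1).isPreconnected
    (z₀ := 2) (by simp) ?_ (by simp)
  filter_upwards [(isOpen_lt continuous_const Complex.continuous_re).mem_nhds
    (show (1 : ℝ) < (2 : ℂ).re by norm_num)] with t ht
  rw [hZ.2 t ht, h0.2 t ht]

variable [Fintype (RayClassGroup 𝔪)]

/-- **Brumer's element.** -/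
def brumerElt (h𝔪 : 𝔪 ≠ ⊥) : MonoidAlgebra ℚ (RayClassGroup 𝔪) :=
  ∑ γ, MonoidAlgebra.single γ⁻¹ (rayClassValue h𝔪 γ)

/-- A character on the group ring. -/
abbrev charEval (χ : RayClassGroup 𝔪 →* ℂˣ) : MonoidAlgebra ℚ (RayClassGroup 𝔪) →ₐ[ℚ] ℂ :=
  MonoidAlgebra.lift ℚ ℂ (RayClassGroup 𝔪) ((Units.coeHom ℂ).comp χ)

theorem charEval_brumerElt (h𝔪 : 𝔪 ≠ ⊥) (χ : RayClassGroup 𝔪 →* ℂˣ) :
    charEval χ (brumerElt h𝔪) = ∑ γ, (χ γ⁻¹ : ℂ) * (rayClassValue h𝔪 γ : ℂ) := by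
  rw [brumerElt, map_sum]
  refine Finset.sum_congr rfl fun γ _ => ?_
  rw [MonoidAlgebra.lift_single, Algebra.smul_def, eq_ratCast, MonoidHom.comp_apply,
    Units.coeHom_apply, mul_comm]

/-- Orthogonality in the other variable. -/
theorem sum_classes_char (χ : RayClassGroup 𝔪 →* ℂˣ) :
    ∑ γ, (χ γ : ℂ) = if χ = 1 then (Fintype.card (RayClassGroup 𝔪) : ℂ) else 0 := by
  split_ifs with h
  · subst h
    simp
  · obtain ⟨a, ha⟩ : ∃ a, χ a ≠ 1 := not_forall.1 fun h' => h (MonoidHom.ext h')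
    have h1 : (χ a : ℂ) * ∑ γ, (χ γ : ℂ) = ∑ γ, (χ γ : ℂ) := by
      rw [Finset.mul_sum]
      exact Fintype.sum_equiv (Equiv.mulLeft a) _ _ fun γ => by simp
    refine (mul_eq_zero.1 (show ((χ a : ℂ) - 1) * ∑ γ, (χ γ : ℂ) = 0 by
      rw [sub_mul, one_mul, h1, sub_self])).resolve_left (sub_ne_zero.2 fun e => ha (Units.ext e))

/-- **The L-series is the combination of the zeta functions of the classes.** -/
theorem heckeL_eq_sum_classes (h𝔪 : 𝔪 ≠ ⊥) (χ : RayClassGroup 𝔪 →* ℂˣ) {s : ℂ}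
    (hs : 1 < s.re) :
    heckeL (rayCharFn h𝔪 χ) s = ∑ γ, (χ γ : ℂ) * rayClassZeta h𝔪 γ s := by
  have := FA.Weight1.fintypeDual (U := RayClassGroup 𝔪)
  refine mul_left_cancel₀ (Nat.cast_ne_zero.2 (Fintype.card_ne_zero (α := RayClassGroup 𝔪)))
    (?_ : (Fintype.card (RayClassGroup 𝔪) : ℂ) * _ = (Fintype.card (RayClassGroup 𝔪) : ℂ) * _)
  rw [Finset.mul_sum, Finset.sum_congr rfl fun γ _ => by
    rw [mul_left_comm, card_mul_rayClassZeta h𝔪 γ hs, Finset.mul_sum], Finset.sum_comm,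
    Finset.sum_eq_single χ (fun ψ _ hne => ?_) (by simp)]
  · simp only [← mul_assoc, map_inv, ← Units.val_mul, mul_inv_cancel, Units.val_one, one_mul]
    rw [Finset.sum_const, Finset.card_univ, nsmul_eq_mul]
  · simp only [← mul_assoc, map_inv, ← Units.val_mul]
    rw [← Finset.sum_mul, show ∑ γ, ((χ γ * (ψ γ)⁻¹ : ℂˣ) : ℂ) = ∑ γ, ((χ * ψ⁻¹) γ : ℂ) from rfl,
      sum_classes_char, if_neg fun e => hne (mul_inv_eq_one.1 e).symm, zero_mul]

/-- **A character carries it to the value at `0` of its inverse.** -/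
theorem charEval_brumerElt_eq (h𝔪 : 𝔪 ≠ ⊥) (χ : RayClassGroup 𝔪 →* ℂˣ) {Z : ℂ → ℂ}
    (hZ : IsLExt (rayCharFn h𝔪 χ⁻¹) Z) : charEval χ (brumerElt h𝔪) = Z 0 := by
  choose W hW using fun γ : RayClassGroup 𝔪 => exists_isClassExt h𝔪 γ
  have hsum : IsLExt (rayCharFn h𝔪 χ⁻¹) fun s => ∑ γ, (χ γ⁻¹ : ℂ) * W γ s :=
    ⟨DifferentiableOn.fun_sum fun γ _ => (hW γ).1.const_mul _, fun s hs => by
      simp only [heckeL_eq_sum_classes h𝔪 _ hs, (hW _).2 s hs, MonoidHom.inv_apply, map_inv]⟩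
  rw [charEval_brumerElt, hZ.unique hsum zero_ne_one]
  exact Finset.sum_congr rfl fun γ _ => by rw [rayClassValue_spec h𝔪 γ (hW γ)]

/-- Characters separate the group ring. -/
theorem ext_of_charEval {x y : MonoidAlgebra ℚ (RayClassGroup 𝔪)}
    (h : ∀ χ, charEval χ x = charEval χ y) : x = y := by
  have := FA.Weight1.fintypeDual (U := RayClassGroup 𝔪)
  have hcoef : ∀ (z : MonoidAlgebra ℚ (RayClassGroup 𝔪)) (g : RayClassGroup 𝔪),
      ∑ χ : RayClassGroup 𝔪 →* ℂˣ, (χ g⁻¹ : ℂ) * charEval χ z =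
        (Fintype.card (RayClassGroup 𝔪) : ℂ) * (z.coeff g : ℂ) := fun z g => by
    induction z using MonoidAlgebra.induction_linear with
    | zero => simp
    | add a b ha hb =>
      simp only [map_add, mul_add, Finset.sum_add_distrib, ha, hb, MonoidAlgebra.coeff_add,
        Finsupp.add_apply, Rat.cast_add]
    | single a r =>
      simp only [MonoidAlgebra.lift_single, MonoidAlgebra.coeff_single, Finsupp.single_apply,
        Algebra.smul_def, eq_ratCast, MonoidHom.comp_apply, Units.coeHom_apply]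
      rw [Finset.sum_congr rfl fun (χ : RayClassGroup 𝔪 →* ℂˣ) _ =>
        show (χ g⁻¹ : ℂ) * ((r : ℂ) * (χ a : ℂ)) = (r : ℂ) * (χ (g⁻¹ * a) : ℂ) by
          rw [map_mul, Units.val_mul]; ring, ← Finset.mul_sum,
        show ∑ χ : RayClassGroup 𝔪 →* ℂˣ, (χ (g⁻¹ * a) : ℂ) =
          if g⁻¹ * a = 1 then (Fintype.card (RayClassGroup 𝔪) : ℂ) else 0 by
            refine Eq.trans (Finset.sum_congr (Finset.ext fun _ => by simp) fun _ _ => rfl)
              ((FA.Weight1.sum_char_apply (U := RayClassGroup 𝔪) _).trans ?_)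
            split_ifs <;> rfl]
      by_cases hag : a = g
      · rw [if_pos hag, if_pos (by rw [hag, inv_mul_cancel]), mul_comm]
      · rw [if_neg hag, if_neg fun e => hag (inv_mul_eq_one.1 e).symm]
        simp
  refine MonoidAlgebra.ext (Finsupp.ext fun g => Rat.cast_injective (α := ℂ)
    (mul_left_cancel₀ (Nat.cast_ne_zero.2 (Fintype.card_ne_zero (α := RayClassGroup 𝔪))) ?_))
  rw [← hcoef, ← hcoef]
  simp only [h]

/-- The Euler factor of a prime. -/
def eulerElt (h𝔪 : 𝔪 ≠ ⊥) (v : HeightOneSpectrum (𝓞 F)) : MonoidAlgebra ℚ (RayClassGroup 𝔪) :=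
  if h : v.asIdeal ⊔ 𝔪 = ⊤ then
    1 - MonoidAlgebra.single (rayClass h𝔪 ⟨primeIdeal v, h⟩)⁻¹ 1 else 1

/-- **Compatibility with a change of modulus.** -/
theorem brumerElt_compat (h𝔪 : 𝔪 ≠ ⊥) (h𝔐 : 𝔐 ≠ ⊥) (hle : 𝔐 ≤ 𝔪)
    [Fintype (RayClassGroup 𝔐)] :
    MonoidAlgebra.mapDomainAlgHom ℚ ℚ (rayMap h𝔐 h𝔪 hle) (brumerElt h𝔐) =
      brumerElt h𝔪 * ∏ v ∈ (Ideal.finite_factors h𝔐).toFinset, eulerElt h𝔪 v := by
  refine ext_of_charEval fun χ => ?_
  have h1 : charEval χ (MonoidAlgebra.mapDomainAlgHom ℚ ℚ (rayMap h𝔐 h𝔪 hle) (brumerElt h𝔐)) =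
      charEval (χ.comp (rayMap h𝔐 h𝔪 hle)) (brumerElt h𝔐) := by
    rw [charEval_brumerElt, brumerElt, map_sum, map_sum]
    refine Finset.sum_congr rfl fun γ _ => ?_
    rw [MonoidAlgebra.mapDomainAlgHom_apply, MonoidAlgebra.mapDomain_single,
      MonoidAlgebra.lift_single, Algebra.smul_def, eq_ratCast, MonoidHom.comp_apply,
      Units.coeHom_apply, mul_comm]
    rfl
  have hf := isRayChar_rayCharFn h𝔐 (χ.comp (rayMap h𝔐 h𝔪 hle))⁻¹
  have hg := isRayChar_rayCharFn h𝔪 χ⁻¹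
  obtain ⟨Z, hZ⟩ := exists_isLExt hg
  have hagree : ∀ I : Ideal (𝓞 F), I ≠ ⊥ → I ⊔ 𝔐 = ⊤ →
      rayCharFn h𝔪 χ⁻¹ I = rayCharFn h𝔐 (χ.comp (rayMap h𝔐 h𝔪 hle))⁻¹ I := fun I hI hc => by
    obtain ⟨J, hJ⟩ : ∃ J : coprimeIdeals 𝔐, J.1.1 = I :=
      ⟨⟨⟨I, mem_nonZeroDivisors_iff_ne_zero.2 hI⟩, hc⟩, rfl⟩
    rw [← hJ, rayCharFn_apply, MonoidHom.inv_apply, MonoidHom.comp_apply, rayMap_apply,
      show J.1.1 = (⟨J.1, coprimeIdeals_mono hle J.2⟩ : coprimeIdeals 𝔪).1.1 from rfl,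
      rayCharFn_apply, MonoidHom.inv_apply]
  have hT : hf.finite_zero.toFinset = (Ideal.finite_factors h𝔐).toFinset := by
    ext v
    simp only [Set.Finite.mem_toFinset, Set.mem_ofPred_eq]
    rw [← not_iff_not, ← ne_eq, hf.ne_zero_iff _ v.ne_bot, Ideal.dvd_iff_le,
      FA.ArtinRec.sup_eq_top_iff_not_le]
  rw [h1, map_mul, map_prod, charEval_brumerElt_eq h𝔪 χ hZ,
    charEval_brumerElt_eq h𝔐 _ (Z := fun s => Z s * ∏ v ∈ hf.finite_zero.toFinset,
      (1 - fPow (rayCharFn h𝔪 χ⁻¹) s v))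
      ⟨hZ.1.mul (differentiable_factors _ _).differentiableOn, fun s hs => by
        simp only [heckeL_of_induced hf hg hagree hs, hZ.2 s hs]⟩, hT]
  refine congrArg _ (Finset.prod_congr rfl fun v _ => ?_)
  rw [fPow, show FA.PrimeIdeal.primePow (0 : ℂ) v = 1 by simp [FA.PrimeIdeal.primePow], mul_one,
    eulerElt]
  split_ifs with h
  · rw [map_sub, map_one, MonoidAlgebra.lift_single, one_smul, MonoidHom.comp_apply,
      Units.coeHom_apply, show v.asIdeal = (⟨primeIdeal v, h⟩ : coprimeIdeals 𝔪).1.1 from rfl,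
      rayCharFn_apply, MonoidHom.inv_apply, map_inv]
  · rw [hg.eq_zero_of_not v.ne_bot h, sub_zero, map_one]

end FA.CMValue

end
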