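import Fermat.Agent.KlingenZero.Values
import Fermat.Agent.ArtinFE.Linear
import Fermat.Agent.ArtinL.BiquadraticUnits
import Fermat.Agent.ArtinL.Formulas
import Fermat.Agent.HeckeDifferent.QuadraticField
import Mathlib.NumberTheory.NumberField.CMField

/-!
# The relative class number of a CM field as the value at `0` of its character

For a CM field `K` the zeta function is that of `K⁺` times the L-series of a primitive totally odd
quadratic character `g` of `K⁺`; comparing the leading terms at `0` with the regulators gives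
`h 2 ^ n = h⁺ Q w L (g, 0)`.
-/

set_option autoImplicit false
set_option linter.unusedSectionVars false
set_option linter.style.haveILetI false

noncomputable section

open NumberField InfinitePlace IsDedekindDomain Module Filter Complex
open scoped Real nonZeroDivisors Classical Topology

namespace FA.CMValue

open FA.HeckeFE FA.HeckeCharFE FA.KlingenRay
open FA.Hecke (IsRayChar IsNontrivial heckeL)
open FA.ArtinRec (IsRam artinAt)
open FA.ArtinL (artinL inducedFn)

section realPlaces

variable {F L : Type*} [Field F] [NumberField F] [IsTotallyReal F] [Field L] [NumberField L]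
  [IsTotallyComplex L] [Algebra F L]

/-- A totally complex field over a totally real one ramifies at every real place. -/
theorem realRam_eq_univ : FA.ArtinFE.realRam F L = Finset.univ := by
  refine Finset.eq_univ_of_forall fun w => FA.ArtinFE.mem_realRam.2 fun h => ?_
  obtain ⟨u, hu⟩ := comap_surjective (K := L) w
  exact not_isUnramified_iff.2 ⟨IsTotallyComplex.isComplex u, IsTotallyReal.isReal _⟩ (h u hu)

end realPlaces

section character

variable {F M : Type*} [Field F] [NumberField F] [Field M] [NumberField M] [Algebra F M]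
  [IsGalois F M] [IsMulCommutative (M ≃ₐ[F] M)]

/-- The character of a faithful linear character, with its conjugates. -/
theorem exists_char_faithful (ψ : (M ≃ₐ[F] M) →* ℂˣ) (hψ : Function.Injective ψ) (hne : ψ ≠ 1) :
    ∃ (𝔣 : Ideal (𝓞 F)) (g : Ideal (𝓞 F) →* ℂ), HasSigns 𝔣 g (FA.ArtinFE.realRam F M) ∧
      IsPrimitiveChar 𝔣 g ∧ IsNontrivial g ∧
      (∀ v : HeightOneSpectrum (𝓞 F), g v.asIdeal = 0 ∨ ∃ a, g v.asIdeal = (ψ a : ℂ)) ∧
      ∀ (σ : ℂ →+* ℂ) (s : ℂ), 1 < s.re →
        artinL (fun a => σ (ψ a : ℂ)) s = heckeL (twistChar σ g) s := by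
  obtain ⟨𝔣, g, hS, hp, hnt, -, hsupp, hval⟩ := FA.ArtinFE.exists_hecke_char_faithful ψ hψ hne
  refine ⟨𝔣, g, hS, hp, hnt, fun v => ?_, fun σ s hs => ?_⟩
  · by_cases hv : IsRam M v
    · exact Or.inl (hS.ray.eq_zero_of_not v.ne_bot fun h =>
        (FA.ArtinRec.sup_eq_top_iff_not_le v 𝔣).1 h (Ideal.le_of_dvd ((hsupp v).2 hv)))
    · exact Or.inr ⟨_, hval v hv⟩
  · exact FA.ArtinFE.artinL_eq_heckeL ((Units.map σ.toMonoidHom).comp ψ)
      ((Units.map_injective (f := σ.toMonoidHom) σ.injective).comp hψ) (twist_ray hS.ray σ) hsupp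
      (fun v hv => congrArg σ (hval v hv)) hs

/-- A multiplicative function with values `0`, `1`, `-1` on the primes has these values. -/
theorem trivalued {g : Ideal (𝓞 F) →* ℂ}
    (h : ∀ v : HeightOneSpectrum (𝓞 F), g v.asIdeal = 0 ∨ g v.asIdeal = 1 ∨ g v.asIdeal = -1)
    {I : Ideal (𝓞 F)} (hI : I ≠ ⊥) : g I = 0 ∨ g I = 1 ∨ g I = -1 := by
  revert hI
  induction I using UniqueFactorizationMonoid.induction_on_prime with
  | h₁ => exact fun hI => absurd rfl hI
  | h₂ x hx =>
    intro _
    rw [Ideal.isUnit_iff.1 hx, ← Ideal.one_eq_top, map_one]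
    exact Or.inr (Or.inl rfl)
  | h₃ a p ha hp ih =>
    intro hI
    rw [map_mul]
    rcases h ⟨p, Ideal.isPrime_of_prime hp, hp.ne_zero⟩ with h1 | h1 | h1 <;>
      rcases ih ha with h2 | h2 | h2 <;> dsimp only at h1 <;> simp [h1, h2]

end character

variable (K : Type*) [Field K] [NumberField K] [IsCMField K]

local notation3 "K⁺" => maximalRealSubfield K

theorem card_gal : Nat.card (K ≃ₐ[K⁺] K) = 2 :=
  (IsGalois.card_aut_eq_finrank K⁺ K).trans (Algebra.IsQuadraticExtension.finrank_eq_two K⁺ K)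

theorem eq_one_or_conj (g : K ≃ₐ[K⁺] K) : g = 1 ∨ g = IsCMField.complexConj K := by
  obtain ⟨y, -, huniq⟩ := (Nat.card_eq_two_iff' (1 : K ≃ₐ[K⁺] K)).1 (card_gal K)
  refine or_iff_not_imp_left.2 fun h => ?_
  rw [huniq g h, huniq _ (IsCMField.complexConj_ne_one K)]

/-- **The character of a CM field.** -/
theorem exists_cm_char : ∃ (𝔣 : Ideal (𝓞 K⁺)) (g : Ideal (𝓞 K⁺) →* ℂ),
    HasSigns 𝔣 g Finset.univ ∧ IsPrimitiveChar 𝔣 g ∧ IsNontrivial g ∧
    (∀ I : Ideal (𝓞 K⁺), I ≠ ⊥ → g I = 0 ∨ g I = 1 ∨ g I = -1) ∧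
    ∀ s : ℂ, 1 < s.re → dedekindZeta K s = dedekindZeta K⁺ s * heckeL g s := by
  have : IsMulCommutative (K ≃ₐ[K⁺] K) := ⟨⟨fun a b => by
    rcases eq_one_or_conj K a with rfl | rfl <;> rcases eq_one_or_conj K b with rfl | rfl <;>
      simp⟩⟩
  have hc := IsCMField.complexConj_ne_one K
  have hcc : IsCMField.complexConj K * IsCMField.complexConj K = 1 := by
    ext x
    simp
  obtain ⟨ψ, hψ⟩ : ∃ ψ : (K ≃ₐ[K⁺] K) →* ℂˣ, ∀ a, ψ a = if a = 1 then 1 else -1 := by
    refine ⟨{ toFun := fun a => if a = 1 then 1 else -1, map_one' := if_pos rfl,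
              map_mul' := fun a b => ?_ }, fun a => rfl⟩
    rcases eq_one_or_conj K a with rfl | rfl <;> rcases eq_one_or_conj K b with rfl | rfl <;>
      simp [hc, hcc]
  have hinj : Function.Injective ψ := (injective_iff_map_eq_one ψ).2 fun a ha => by
    by_contra h
    rw [hψ, if_neg h, Units.ext_iff] at ha
    norm_num at ha
  have hne : ψ ≠ 1 := fun e => by
    have h := DFunLike.congr_fun e (IsCMField.complexConj K)
    rw [hψ, if_neg hc, MonoidHom.one_apply, Units.ext_iff] at h
    norm_num at h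
  obtain ⟨𝔣, g, hS, hp, hnt, hval, hL⟩ := exists_char_faithful ψ hinj hne
  rw [realRam_eq_univ] at hS
  refine ⟨𝔣, g, hS, hp, hnt, fun I hI => trivalued (fun v => ?_) hI, fun s hs => ?_⟩
  · rcases hval v with h | ⟨a, h⟩
    · exact Or.inl h
    · rw [h, hψ]
      split_ifs <;> simp
  · rw [FA.ArtinL.dedekindZeta_eq_artinL (K := K⁺) (L := K) hs K,
      FA.HeckeDiff.inducedFn_eq_one_add (card_gal K) ψ hinj, FA.ArtinL.artinL_add hs,
      FA.ArtinL.artinL_one hs]
    exact congrArg _ (hL (RingHom.id ℂ) s hs)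

variable {K}

/-- **The relative class number formula**, through any continuation of the quotient of the zeta
functions. -/
theorem classNumber_formula {Z : ℂ → ℂ} (hd : DifferentiableOn ℂ Z {1}ᶜ)
    (hzeta : ∀ s : ℂ, 1 < s.re → dedekindZeta K s = dedekindZeta K⁺ s * Z s) :
    (classNumber K : ℂ) * 2 ^ finrank ℚ K⁺ =
      (classNumber K⁺ : ℂ) * (IsCMField.indexRealUnits K : ℂ) * (Units.torsionOrder K : ℂ) *
        Z 0 := by
  obtain ⟨m, hm⟩ : ∃ m, finrank ℚ K⁺ = m + 1 := ⟨finrank ℚ K⁺ - 1, by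
    have := finrank_pos (R := ℚ) (M := K⁺)
    omega⟩
  have hr : nrRealPlaces K⁺ + nrComplexPlaces K⁺ - 1 = m := by
    rw [IsTotallyReal.nrComplexPlaces_eq_zero, ← IsTotallyReal.finrank, hm]
    rfl
  have hrK : nrRealPlaces K + nrComplexPlaces K - 1 = m := by
    rw [← card_eq_nrRealPlaces_add_nrComplexPlaces,
      ← IsCMField.card_infinitePlace_eq_card_infinitePlace K,
      card_eq_nrRealPlaces_add_nrComplexPlaces, hr]
  have heq : Set.EqOn (extension K) (fun s => extension K⁺ s * Z s) {1}ᶜ := by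
    refine ((differentiableOn_extension K).analyticOnNhd
      isOpen_compl_singleton).eqOn_of_preconnected_of_eventuallyEq
        (((differentiableOn_extension K⁺).mul hd).analyticOnNhd isOpen_compl_singleton)
        (isConnected_compl_singleton_of_one_lt_rank (by simp) 1).isPreconnected
        (z₀ := 2) (by simp) ?_
    filter_upwards [(isOpen_lt continuous_const Complex.continuous_re).mem_nhds
      (show (1 : ℝ) < (2 : ℂ).re by norm_num)] with t ht
    rw [extension_eq_dedekindZeta K ht, extension_eq_dedekindZeta K⁺ ht, hzeta t ht]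
  have hK := tendsto_extension_zero K
  have hP := (tendsto_extension_zero K⁺).mul (((hd.differentiableAt
    (isOpen_compl_singleton.mem_nhds (show (0 : ℂ) ∈ ({1}ᶜ : Set ℂ) by simp))).continuousAt.tendsto
      ).mono_left (nhdsWithin_le_nhds (s := {(0 : ℂ)}ᶜ)))
  rw [hrK] at hK
  rw [hr] at hP
  have hne1 : ∀ᶠ s : ℂ in 𝓝[≠] 0, s ∈ ({1}ᶜ : Set ℂ) :=
    Filter.Eventually.filter_mono nhdsWithin_le_nhds
      (isOpen_compl_singleton.mem_nhds (show (0 : ℂ) ∈ ({1}ᶜ : Set ℂ) by simp))
  have hlim := tendsto_nhds_unique hK (hP.congr' (hne1.mono fun s hs => by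
    simp only []
    rw [heq hs]
    ring))
  have hQ : (IsCMField.indexRealUnits K : ℂ) ≠ 0 := by
    rcases IsCMField.indexRealUnits_eq_one_or_two K with e | e <;> rw [e] <;> norm_num
  have hw : (Units.torsionOrder K : ℂ) ≠ 0 := Nat.cast_ne_zero.2 (NeZero.ne _)
  have hrank : Units.rank K = m := by
    rw [← IsCMField.units_rank_eq_units_rank K, Units.rank,
      card_eq_nrRealPlaces_add_nrComplexPlaces, hr]
  have hreg := IsCMField.regulator_div_regulator_eq_two_pow_mul_indexRealUnits_inv K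
  rw [div_eq_iff (Units.regulator_ne_zero _), hrank] at hreg
  have hR : (Units.regulator K⁺ : ℂ) ≠ 0 := ofReal_ne_zero.2 (Units.regulator_ne_zero _)
  rw [hreg, FA.ArtinL.BiquadraticUnits.torsionOrder_eq_two (F := K⁺)] at hlim
  push_cast at hlim
  field_simp at hlim
  rw [hm, pow_succ]
  linear_combination (-1 : ℂ) * hlim

end FA.CMValue

end
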